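import Fermat.Agent.S13.H64.AtP
import Fermat.Agent.Lib.Red.H290.RedKer

/-!
# RIBET / ELOC-ord-Frey (helper62): abstract ingredients on a Weierstrass curve

* `add_sub_some_diff` : `(x₁ - x₂)² (x(P+Q) - x(P-Q)) = - η(P) η(Q)`, `η = 2y + a₁x + a₃`;
* `eta_ne_zero_of_odd_torsion` : `η(P) ≠ 0` for a nonzero point of odd order;
* `val_eta_of_node` : at a node with `v(π)^n = v(α)²`, the valuation of `η(P)` for an integral
  `n`-torsion point is the valuation of a power of `π`;
* `xq` : the `x`-coordinate (`0` at the origin).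
-/

set_option autoImplicit false
set_option linter.unusedSectionVars false
set_option linter.unusedVariables false

namespace Fermat.Agent.Ribet.H62

open WeierstrassCurve WeierstrassCurve.Affine WeierstrassCurve.Affine.Point
open Fermat.Agent.S05 Fermat.Agent.S05.SameRed Fermat.Agent.S05.Assemble
open Fermat.Agent.S13.H64

section Field

variable {K : Type*} [Field K] [DecidableEq K] {W : Affine K}

/-- the `x`-coordinate of a point (`0` at the origin) -/
def xq : W.Point → K
  | .zero => 0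
  | .some x _ _ => x

@[simp] lemma xq_some {x y : K} (h : W.Nonsingular x y) : xq (Point.some x y h) = x := rfl

lemma addX_diff (x₁ x₂ y₁ y₂ : K) (hx : x₁ ≠ x₂) :
    (x₁ - x₂) ^ 2 * (W.addX x₁ x₂ (W.slope x₁ x₂ y₁ y₂) -
        W.addX x₁ x₂ (W.slope x₁ x₂ y₁ (W.negY x₂ y₂)))
      = -((2 * y₁ + W.a₁ * x₁ + W.a₃) * (2 * y₂ + W.a₁ * x₂ + W.a₃)) := by
  have hd : x₁ - x₂ ≠ 0 := sub_ne_zero.mpr hx
  rw [slope_of_X_ne hx, slope_of_X_ne hx, mul_sub, XId.addX_div W _ _ _ _ hd,
    XId.addX_div W _ _ _ _ hd]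
  simp only [negY]
  ring

/-- `P + Q` and `P - Q` for affine points with distinct `x`-coordinates, with the difference
formula for their `x`-coordinates. -/
theorem add_sub_some_diff {x₁ x₂ y₁ y₂ : K} (h₁ : W.Nonsingular x₁ y₁)
    (h₂ : W.Nonsingular x₂ y₂) (hx : x₁ ≠ x₂) :
    (x₁ - x₂) ^ 2 * (xq (Point.some x₁ y₁ h₁ + Point.some x₂ y₂ h₂) -
        xq (Point.some x₁ y₁ h₁ - Point.some x₂ y₂ h₂))
      = -((2 * y₁ + W.a₁ * x₁ + W.a₃) * (2 * y₂ + W.a₁ * x₂ + W.a₃)) := by
  have e2 : Point.some x₁ y₁ h₁ - Point.some x₂ y₂ h₂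
      = Point.some x₁ y₁ h₁ + Point.some x₂ (W.negY x₂ y₂) ((nonsingular_neg ..).mpr h₂) := by
    rw [sub_eq_add_neg, Point.neg_some]
  rw [e2, Point.add_of_X_ne hx, Point.add_of_X_ne hx, xq_some, xq_some]
  exact addX_diff x₁ x₂ y₁ y₂ hx

/-- A nonzero point of odd order is not a `2`-torsion point: `η ≠ 0`. -/
theorem eta_ne_zero_of_odd_torsion {n : ℕ} (hn : Odd n) {x y : K} (h : W.Nonsingular x y)
    (hP : n • Point.some x y h = 0) : 2 * y + W.a₁ * x + W.a₃ ≠ 0 := by
  intro hη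
  have hy : y = W.negY x y := by
    simp only [negY]
    linear_combination hη
  have h2 : Point.some x y h + Point.some x y h = 0 := Point.add_of_Y_eq rfl hy
  obtain ⟨k, hk⟩ := hn
  have h3 : n • Point.some x y h = k • (Point.some x y h + Point.some x y h) +
      Point.some x y h := by
    rw [hk]
    module
  rw [h2, smul_zero, zero_add] at h3
  rw [h3] at hP
  exact Point.some_ne_zero h hP

end Field

section Val

variable {K : Type*} [Field K] [DecidableEq K]
  {Γ₀ : Type*} [LinearOrderedCommGroupWithZero Γ₀]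
variable {W : Affine K} {v : Valuation K Γ₀}

/-- The valuation of `η` at an integral odd torsion point, at a node of thickness
`v(α)² = v(π)^n`: it is the valuation of a power of `π`. -/
theorem val_eta_of_node (hW : IntegralCoeffs W v) (h2 : v (2 : K) = 1)
    {n : ℕ} (hn : Odd n)
    {e₁ α β : K} (hr : Roots W e₁ (e₁ + α) (e₁ + β)) (he₁ : v e₁ ≤ 1) (hα : v α < 1)
    (hβ : v β = 1)
    {π : K} (hπ : v π ^ n = v α ^ 2)
    (hC3 : NodeTorsion W v e₁ α n)
    {x y : K} (h : W.Nonsingular x y)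
    (hP : n • Point.some x y h = 0) (hx : v x ≤ 1) :
    ∃ j : ℕ, v (2 * y + W.a₁ * x + W.a₃) = v (π ^ j) := by
  have hy : v y ≤ 1 := Assemble.val_y_le_one hW h.1 hx
  have h4 := val_four (v := v) h2
  have hn0 : n ≠ 0 := hn.pos.ne'
  have hxe : v (x - e₁) ≤ 1 := val_sub_le_one hx he₁
  have hr₂ : v (e₁ + α) ≤ 1 := val_add_le_one he₁ hα.le
  have hr₃ : v (e₁ + β) ≤ 1 := val_add_le_one he₁ hβ.le
  have hβα : v (β - α) = 1 := by
    rw [val_sub_eq_of_lt (by rw [hβ]; exact hα), hβ]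
  rcases hxe.lt_or_eq with hlt | heq
  · -- off `E₀`
    obtain ⟨hαx, j, hj⟩ := hC3 x y h hP hlt
    have hvc : v (π ^ j) = v (x - e₁) := by
      apply pow_eq_pow_imp_eq hn0
      rw [hj, map_pow, ← pow_mul, mul_comm, pow_mul, hπ, ← pow_mul]
    have hxα : v (x - (e₁ + α)) = v (x - e₁) := by
      have : x - (e₁ + α) = (x - e₁) - α := by ring
      rw [this, val_sub_eq_of_lt hαx]
    have hxβ : v (x - (e₁ + β)) = 1 := by
      have : x - (e₁ + β) = (x - e₁) - β := by ring
      rw [this, val_sub_eq_of_lt' (by rw [hβ]; exact hlt), hβ]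
    refine ⟨j, ?_⟩
    apply pow_eq_pow_imp_eq (n := 2) (by norm_num)
    rw [← map_pow, hr.eta_sq h.1, map_mul, map_mul, map_mul, h4, hxα, hxβ, hvc]
    simp [pow_two]
  · -- on `E₀`
    refine ⟨0, ?_⟩
    rw [pow_zero, map_one]
    apply val_eta_eq_one_of_integral_torsion hW h2 hn h hP hx
    intro hη
    have hsq := val_eta_sq_lt_one hη
    rw [hr.eta_sq h.1, map_mul, h4, one_mul] at hsq
    have hxα : v (x - (e₁ + α)) = 1 := by
      have : x - (e₁ + α) = (x - e₁) - α := by ring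
      rw [this, val_sub_eq_of_lt (by rw [heq]; exact hα), heq]
    have h3 : v (x - (e₁ + β)) < 1 := by
      rw [map_mul, map_mul, heq, hxα, one_mul, one_mul] at hsq
      exact hsq
    have h31 : v (e₁ + β - e₁) = 1 := by
      have : e₁ + β - e₁ = β := by ring
      rw [this, hβ]
    have h32 : v (e₁ + β - (e₁ + α)) = 1 := by
      have : e₁ + β - (e₁ + α) = β - α := by ring
      rw [this, hβα]
    exact hr.swap₁₃.val_WX_eq_one hW h2 hx hr₃ hr₂ he₁ hη h3 h32 h31

end Val

end Fermat.Agent.Ribet.H62
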