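import Mathlib

/-!
# RIBET / ELOC (helper62): the Lagrange-resolvent core of "peu ramifié"

Pure valuation theory + Kummer theory, Mathlib only.

`K` a field with a valuation `v`, `H` a set of ring endomorphisms of `K` fixing a primitive
`p`-th root of unity `ζ` (`p` an odd prime, `p ≠ 0` in `K`).  Let `b : ZMod p → K` be a family
permuted cyclically by `H`: `τ (b i) = b (i + n τ)`.  Let `σ ∈ H` fix every `v`-unit `y` whose
`p`-th power is `H`-fixed ("`σ` is in the peu ramifié subgroup").  If the valuation of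
`(b 1 - b (-1)) ^ 2` is the valuation of a nonzero `H`-fixed element, then `n σ = 0`.

Idea: the resolvents `g j = ∑ i, ζ ^ (-(i j)) b i` are Kummer generators; if none of them is an
`H`-fixed element times a unit then their valuations are pairwise distinct modulo the value
group of the fixed field, so `v (p (b 1 - b (-1)))` is the valuation of one of them up to
the value group of the fixed field, and so is its square: contradiction with `gcd (2, p) = 1`.
-/

set_option autoImplicit false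
set_option linter.unusedSectionVars false

namespace Fermat.Agent.Ribet.H62

open Finset

section Ultrametric

variable {K : Type*} [Field K] {Γ₀ : Type*} [LinearOrderedCommGroupWithZero Γ₀]
  (v : Valuation K Γ₀)

/-- A finite sum whose nonzero terms have pairwise distinct valuations has the valuation of one
of its nonzero terms (or all terms vanish). -/
theorem exists_val_sum_eq {ι : Type*} [DecidableEq ι] (s : Finset ι) (f : ι → K)
    (hd : ∀ i ∈ s, ∀ j ∈ s, i ≠ j → f i ≠ 0 → f j ≠ 0 → v (f i) ≠ v (f j)) :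
    (∀ i ∈ s, f i = 0) ∨ ∃ i ∈ s, f i ≠ 0 ∧ v (∑ k ∈ s, f k) = v (f i) := by
  induction s using Finset.induction_on with
  | empty => left; simp
  | insert a s ha ih =>
    have hd' : ∀ i ∈ s, ∀ j ∈ s, i ≠ j → f i ≠ 0 → f j ≠ 0 → v (f i) ≠ v (f j) :=
      fun i hi j hj => hd i (mem_insert_of_mem hi) j (mem_insert_of_mem hj)
    rw [sum_insert ha]
    rcases ih hd' with h0 | ⟨i, hi, hfi, hvi⟩
    · have hs : ∑ k ∈ s, f k = 0 := sum_eq_zero h0
      by_cases hfa : f a = 0
      · left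
        intro j hj
        rcases mem_insert.1 hj with rfl | hj
        · exact hfa
        · exact h0 j hj
      · right
        exact ⟨a, mem_insert_self a s, hfa, by rw [hs, add_zero]⟩
    · by_cases hfa : f a = 0
      · right
        exact ⟨i, mem_insert_of_mem hi, hfi, by rw [hfa, zero_add, hvi]⟩
      · right
        have hai : a ≠ i := fun h => ha (h ▸ hi)
        have hne : v (f a) ≠ v (f i) :=
          hd a (mem_insert_self a s) i (mem_insert_of_mem hi) hai hfa hfi
        rcases lt_or_gt_of_ne hne with hlt | hgt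
        · refine ⟨i, mem_insert_of_mem hi, hfi, ?_⟩
          rw [Valuation.map_add_eq_of_lt_right v (by rw [hvi]; exact hlt), hvi]
        · refine ⟨a, mem_insert_self a s, hfa, ?_⟩
          rw [Valuation.map_add_eq_of_lt_left v (by rw [hvi]; exact hgt)]

end Ultrametric

section Core

variable {K : Type*} [Field K] {Γ₀ : Type*} [LinearOrderedCommGroupWithZero Γ₀]
  (v : Valuation K Γ₀)
variable {F : Type*} [FunLike F K K] [RingHomClass F K K] (H : Set F)

/-- `v z` is the valuation of a nonzero `H`-fixed element. -/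
def InV (z : K) : Prop := ∃ κ : K, κ ≠ 0 ∧ (∀ τ ∈ H, τ κ = κ) ∧ v κ = v z

variable {v H}

lemma InV.of_fixed {z : K} (hz0 : z ≠ 0) (hz : ∀ τ ∈ H, τ z = z) : InV v H z :=
  ⟨z, hz0, hz, rfl⟩

lemma InV.ne_zero {z : K} (h : InV v H z) : z ≠ 0 := by
  obtain ⟨κ, hκ0, -, hκ⟩ := h
  intro hz
  rw [hz, map_zero] at hκ
  exact hκ0 ((Valuation.zero_iff v).1 hκ)

lemma InV.mul {z w : K} (hz : InV v H z) (hw : InV v H w) : InV v H (z * w) := by
  obtain ⟨κ, hκ0, hκ, hκv⟩ := hz
  obtain ⟨μ, hμ0, hμ, hμv⟩ := hw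
  exact ⟨κ * μ, mul_ne_zero hκ0 hμ0, fun τ hτ => by rw [map_mul, hκ τ hτ, hμ τ hτ],
    by rw [map_mul, map_mul, hκv, hμv]⟩

lemma InV.inv {z : K} (hz : InV v H z) : InV v H z⁻¹ := by
  obtain ⟨κ, hκ0, hκ, hκv⟩ := hz
  exact ⟨κ⁻¹, inv_ne_zero hκ0, fun τ hτ => by rw [map_inv₀, hκ τ hτ],
    by rw [map_inv₀, map_inv₀, hκv]⟩

lemma InV.div {z w : K} (hz : InV v H z) (hw : InV v H w) : InV v H (z / w) := by
  rw [div_eq_mul_inv]; exact hz.mul hw.inv

lemma InV.pow {z : K} (hz : InV v H z) (k : ℕ) : InV v H (z ^ k) := by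
  induction k with
  | zero => rw [pow_zero]; exact InV.of_fixed one_ne_zero (fun τ _ => map_one τ)
  | succ k ih => rw [pow_succ]; exact ih.mul hz

lemma InV.zpow {z : K} (hz : InV v H z) (k : ℤ) : InV v H (z ^ k) := by
  cases k with
  | ofNat k => rw [Int.ofNat_eq_natCast, zpow_natCast]; exact hz.pow k
  | negSucc k => rw [zpow_negSucc]; exact (hz.pow (k + 1)).inv

lemma InV.congr {z w : K} (hz : InV v H z) (h : v z = v w) : InV v H w := by
  obtain ⟨κ, hκ0, hκ, hκv⟩ := hz
  exact ⟨κ, hκ0, hκ, hκv.trans h⟩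

/-- Bezout: if the valuations of `z ^ a` and `z ^ b` come from the fixed field and
`gcd (a, b) = 1` then so does the valuation of `z`. -/
lemma InV.of_coprime {z : K} (hz0 : z ≠ 0) {a b : ℕ} (hab : Nat.Coprime a b)
    (ha : InV v H (z ^ a)) (hb : InV v H (z ^ b)) : InV v H z := by
  have h1 : (1 : ℤ) = a * Nat.gcdA a b + b * Nat.gcdB a b := by
    have := Nat.gcd_eq_gcd_ab a b
    rw [hab.gcd_eq_one] at this
    exact_mod_cast this
  have h2 : z = (z ^ a) ^ (Nat.gcdA a b) * (z ^ b) ^ (Nat.gcdB a b) := by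
    rw [← zpow_natCast z a, ← zpow_natCast z b, ← zpow_mul, ← zpow_mul, ← zpow_add₀ hz0, ← h1,
      zpow_one]
  rw [h2]
  exact (ha.zpow _).mul (hb.zpow _)

end Core

section Resolvent

variable {K : Type*} [Field K] {Γ₀ : Type*} [LinearOrderedCommGroupWithZero Γ₀]
  {v : Valuation K Γ₀}
variable {F : Type*} [FunLike F K K] [RingHomClass F K K] {H : Set F}
variable {p : ℕ} [hp : Fact p.Prime]

/-- The Lagrange resolvents of a family indexed by `ZMod p`. -/
noncomputable def resolvent (ψ : AddChar (ZMod p) K) (b : ZMod p → K) (j : ZMod p) : K :=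
  ∑ i : ZMod p, ψ (-(i * j)) * b i

lemma map_resolvent (ψ : AddChar (ZMod p) K) (b : ZMod p → K) (τ : F)
    (hψ : ∀ a, τ (ψ a) = ψ a) (n : ZMod p) (hb : ∀ i, τ (b i) = b (i + n)) (j : ZMod p) :
    τ (resolvent ψ b j) = ψ (n * j) * resolvent ψ b j := by
  unfold resolvent
  rw [map_sum, Finset.mul_sum]
  simp only [map_mul, hψ, hb]
  rw [← Equiv.sum_comp (Equiv.addRight n) (fun i => ψ (n * j) * (ψ (-(i * j)) * b i))]
  refine Finset.sum_congr rfl fun i _ => ?_
  simp only [Equiv.coe_addRight]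
  rw [← mul_assoc, ← AddChar.map_add_eq_mul]
  congr 2
  ring

lemma sum_resolvent (ψ : AddChar (ZMod p) K) (hψ : ψ.IsPrimitive) (b : ZMod p → K)
    (i : ZMod p) : ∑ j, ψ (i * j) * resolvent ψ b j = (p : K) * b i := by
  classical
  unfold resolvent
  simp_rw [Finset.mul_sum]
  rw [Finset.sum_comm]
  have h1 : ∀ i' : ZMod p, ∑ j, ψ (i * j) * (ψ (-(i' * j)) * b i')
      = (if i - i' = 0 then (p : K) else 0) * b i' := by
    intro i'
    simp_rw [← mul_assoc, ← AddChar.map_add_eq_mul, ← Finset.sum_mul]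
    congr 1
    have h2 := AddChar.sum_mulShift (i - i') hψ
    rw [ZMod.card] at h2
    have h3 : ((if i - i' = 0 then p else 0 : ℕ) : K) = if i - i' = 0 then (p : K) else 0 := by
      split_ifs <;> simp
    rw [← h3, ← h2]
    refine Finset.sum_congr rfl fun j _ => ?_
    congr 1
    ring
  simp_rw [h1]
  rw [Finset.sum_eq_single i]
  · simp
  · intro i' _ hne
    rw [if_neg (sub_ne_zero.2 (Ne.symm hne)), zero_mul]
  · intro h; exact absurd (Finset.mem_univ i) h

/-- **The resolvent core.** -/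
theorem peu_core (hp2 : p ≠ 2) (hpK : (p : K) ≠ 0)
    {ζ : K} (hζ : IsPrimitiveRoot ζ p) (hHζ : ∀ τ ∈ H, τ ζ = ζ)
    (b : ZMod p → K) (n : F → ZMod p) (hb : ∀ τ ∈ H, ∀ i, τ (b i) = b (i + n τ))
    {σ : F} (hσH : σ ∈ H)
    (hσ : ∀ y : K, v y = 1 → (∀ τ ∈ H, τ (y ^ p) = y ^ p) → σ y = y)
    (hκ : InV v H ((b 1 - b (-1)) ^ 2)) :
    n σ = 0 := by
  classical
  by_contra hn
  have hpp : p.Prime := hp.out
  set ψ : AddChar (ZMod p) K := AddChar.zmodChar p hζ.pow_eq_one with hψdef
  have hψprim : ψ.IsPrimitive := AddChar.zmodChar_primitive_of_primitive_root p hζ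
  have hψ1 : ∀ a, ψ a = 1 ↔ a = 0 := fun a => hψprim.zmod_char_eq_one_iff p a
  have hψfix : ∀ τ ∈ H, ∀ a, τ (ψ a) = ψ a := by
    intro τ hτ a
    rw [hψdef, AddChar.zmodChar_apply, map_pow, hHζ τ hτ]
  set g := resolvent ψ b with hg
  have hgτ : ∀ τ ∈ H, ∀ j, τ (g j) = ψ (n τ * j) * g j :=
    fun τ hτ j => map_resolvent ψ b τ (hψfix τ hτ) (n τ) (hb τ hτ) j
  have hψp : ∀ a, ψ a ^ p = 1 := by
    intro a
    rw [← AddChar.map_nsmul_eq_pow, nsmul_eq_mul, ZMod.natCast_self, zero_mul,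
      AddChar.map_zero_eq_one]
  have hgp : ∀ j, ∀ τ ∈ H, τ (g j ^ p) = g j ^ p := by
    intro j τ hτ
    rw [map_pow, hgτ τ hτ, mul_pow, hψp, one_mul]
  -- Case 1 is impossible: no nonzero resolvent is a unit times a fixed element
  have key : ∀ j, j ≠ 0 → g j ≠ 0 → ¬ InV v H (g j) := by
    rintro j hj hgj ⟨κ, hκ0, hκfix, hκv⟩
    have hy1 : v (g j / κ) = 1 := by
      rw [map_div₀, hκv, div_self]
      exact (Valuation.ne_zero_iff v).2 hgj
    have hyfix : ∀ τ ∈ H, τ ((g j / κ) ^ p) = (g j / κ) ^ p := by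
      intro τ hτ
      rw [div_pow, map_div₀, hgp j τ hτ, map_pow, hκfix τ hτ]
    have h1 := hσ _ hy1 hyfix
    rw [map_div₀, hκfix σ hσH, hgτ σ hσH] at h1
    have h2 : ψ (n σ * j) = 1 := by
      have h3 : ψ (n σ * j) * g j = g j := by
        have := congrArg (fun z => z * κ) h1
        simpa [div_mul_cancel₀ _ hκ0] using this
      exact mul_right_cancel₀ hgj (by rw [h3, one_mul])
    rcases mul_eq_zero.1 ((hψ1 _).1 h2) with h | h
    · exact hn h
    · exact hj h
  have hgpV : ∀ j, g j ≠ 0 → InV v H (g j ^ p) :=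
    fun j hgj => InV.of_fixed (pow_ne_zero _ hgj) (hgp j)
  -- the terms of the inversion formula
  set T : ZMod p → K := fun j => (ψ j - ψ (-j)) * g j with hT
  have hsum : ∑ j, T j = (p : K) * (b 1 - b (-1)) := by
    have h1 := sum_resolvent ψ hψprim b 1
    have h2 := sum_resolvent ψ hψprim b (-1)
    simp only [one_mul, neg_mul] at h1 h2
    rw [mul_sub, ← h1, ← h2, ← Finset.sum_sub_distrib]
    refine Finset.sum_congr rfl fun j _ => ?_
    simp only [hT]; ring
  have hb0 : b 1 - b (-1) ≠ 0 := by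
    intro h
    exact hκ.ne_zero (by rw [h]; ring)
  have hD0 : (p : K) * (b 1 - b (-1)) ≠ 0 := mul_ne_zero hpK hb0
  have h2ne : (2 : ZMod p) ≠ 0 := by
    intro h
    have h' : ((2 : ℕ) : ZMod p) = 0 := by exact_mod_cast h
    rw [ZMod.natCast_eq_zero_iff] at h'
    exact hp2 ((Nat.prime_dvd_prime_iff_eq hpp Nat.prime_two).1 h')
  have hcoef : ∀ j, j ≠ 0 → ψ j - ψ (-j) ≠ 0 := by
    intro j hj h
    have h' : ψ j = ψ (-j) := sub_eq_zero.1 h
    have h1 : ψ (j + j) = 1 := by
      rw [AddChar.map_add_eq_mul]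
      calc ψ j * ψ j = ψ (-j) * ψ j := by rw [← h']
        _ = 1 := by rw [← AddChar.map_add_eq_mul, neg_add_cancel, AddChar.map_zero_eq_one]
    have h2 := (hψ1 _).1 h1
    rw [← two_mul] at h2
    rcases mul_eq_zero.1 h2 with h3 | h3
    · exact h2ne h3
    · exact hj h3
  have hcoefFix : ∀ j, ∀ τ ∈ H, τ (ψ j - ψ (-j)) = ψ j - ψ (-j) := by
    intro j τ hτ
    rw [map_sub, hψfix τ hτ, hψfix τ hτ]
  have hT0 : ∀ j, T j ≠ 0 → j ≠ 0 ∧ g j ≠ 0 := by
    intro j hTj
    constructor
    · rintro rfl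
      apply hTj
      simp only [hT, neg_zero, sub_self, zero_mul]
    · intro h
      apply hTj
      simp only [hT, h, mul_zero]
  have hdist : ∀ i ∈ (Finset.univ : Finset (ZMod p)), ∀ j ∈ (Finset.univ : Finset (ZMod p)),
      i ≠ j → T i ≠ 0 → T j ≠ 0 → v (T i) ≠ v (T j) := by
    intro i _ j _ hij hTi hTj hv
    obtain ⟨hi0, hgi⟩ := hT0 i hTi
    obtain ⟨hj0, hgj⟩ := hT0 j hTj
    -- `j = m i`
    set m : ℕ := (j / i).val with hm
    have hmj : (m : ZMod p) * i = j := by
      rw [hm, ZMod.natCast_zmod_val, div_mul_cancel₀ _ hi0]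
    have hmlt : m < p := ZMod.val_lt _
    have hm0 : m ≠ 0 := by
      intro h
      rw [h, Nat.cast_zero, zero_mul] at hmj
      exact hj0 hmj.symm
    have hm1 : m ≠ 1 := by
      intro h
      rw [h, Nat.cast_one, one_mul] at hmj
      exact hij hmj
    -- the Kummer relation
    have hκ'fix : ∀ τ ∈ H, τ (g j / g i ^ m) = g j / g i ^ m := by
      intro τ hτ
      rw [map_div₀, map_pow, hgτ τ hτ, hgτ τ hτ, mul_pow, ← AddChar.map_nsmul_eq_pow,
        nsmul_eq_mul, ← hmj]
      have e : (m : ZMod p) * (n τ * i) = n τ * (↑m * i) := by ring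
      rw [e]
      have hne : ψ (n τ * (↑m * i)) ≠ 0 := by
        intro h0
        have := hψp (n τ * (↑m * i))
        rw [h0, zero_pow hpp.ne_zero] at this
        exact zero_ne_one this
      rw [mul_div_mul_left _ _ hne]
    have hκ'0 : g j / g i ^ m ≠ 0 := div_ne_zero hgj (pow_ne_zero _ hgi)
    have hV1 : InV v H (g i ^ (m - 1)) := by
      refine ⟨(ψ i - ψ (-i)) / ((ψ j - ψ (-j)) * (g j / g i ^ m)),
        div_ne_zero (hcoef i hi0) (mul_ne_zero (hcoef j hj0) hκ'0), ?_, ?_⟩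
      · intro τ hτ
        rw [map_div₀, map_mul, hcoefFix i τ hτ, hcoefFix j τ hτ, hκ'fix τ hτ]
      · simp only [hT, map_mul] at hv
        have hvi : v (g i) ≠ 0 := (Valuation.ne_zero_iff v).2 hgi
        have hvj : v (g j) ≠ 0 := (Valuation.ne_zero_iff v).2 hgj
        have hvc : v (ψ j - ψ (-j)) ≠ 0 := (Valuation.ne_zero_iff v).2 (hcoef j hj0)
        rw [map_div₀, map_mul, map_div₀, map_pow, map_pow]
        have hm' : m = (m - 1) + 1 := by omega
        have e0 : v (g i) ^ m = v (g i) ^ (m - 1) * v (g i) := by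
          conv_lhs => rw [hm', pow_succ]
        have hci : v (ψ i - ψ (-i)) ≠ 0 := (Valuation.ne_zero_iff v).2 (hcoef i hi0)
        have e1 : v (ψ j - ψ (-j)) * (v (g j) / v (g i) ^ m)
            = v (ψ i - ψ (-i)) / v (g i) ^ (m - 1) := by
          rw [← mul_div_assoc, ← hv, e0, mul_div_mul_right _ _ hvi]
        rw [e1, div_div_cancel₀ hci]
    have hcop : Nat.Coprime (m - 1) p := by
      rw [Nat.coprime_comm, Nat.Prime.coprime_iff_not_dvd hpp]
      intro hdvd
      have := Nat.le_of_dvd (by omega) hdvd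
      omega
    exact key i hi0 hgi (InV.of_coprime hgi hcop hV1 (hgpV i hgi))
  rcases exists_val_sum_eq v Finset.univ T hdist with h0 | ⟨j, -, hTj, hvj⟩
  · exact hD0 (by rw [← hsum]; exact Finset.sum_eq_zero h0)
  · obtain ⟨hj0, hgj⟩ := hT0 j hTj
    rw [hsum] at hvj
    have hV2 : InV v H (g j ^ 2) := by
      have hpV : InV v H ((p : K) ^ 2) :=
        InV.of_fixed (pow_ne_zero _ hpK) (fun τ _ => by rw [map_pow, map_natCast])
      have hcV : InV v H ((ψ j - ψ (-j)) ^ 2) :=
        InV.of_fixed (pow_ne_zero _ (hcoef j hj0))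
          (fun τ hτ => by rw [map_pow, hcoefFix j τ hτ])
      refine ((hpV.mul hκ).div hcV).congr ?_
      have hvc : v (ψ j - ψ (-j)) ≠ 0 := (Valuation.ne_zero_iff v).2 (hcoef j hj0)
      rw [map_div₀, map_mul, map_pow, map_pow, map_pow, map_pow, ← mul_pow, ← map_mul, hvj]
      simp only [hT, map_mul]
      rw [mul_pow, mul_comm, mul_div_assoc, div_self (pow_ne_zero _ hvc), mul_one]
    have hcop : Nat.Coprime 2 p := by
      rw [Nat.coprime_comm, Nat.Prime.coprime_iff_not_dvd hpp]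
      intro hdvd
      exact hp2 ((Nat.prime_dvd_prime_iff_eq hpp Nat.prime_two).1 hdvd)
    exact key j hj0 hgj (InV.of_coprime hgj hcop hV2 (hgpV j hgj))

end Resolvent

end Fermat.Agent.Ribet.H62
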