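import Fermat.Agent.Ribet.H62.ElocFreyOrd
import Fermat.Agent.Ribet.H62.PeuCore

/-!
# RIBET / ELOC-ord-Frey (helper62): `elocOrdFrey : H944.Wall.ELOCOrdFreyStatement`

For the Frey curve at `p ∣ abc` and a valuation ring `A` of `ℚ̄` over `p`:
the line `⟨t⟩ = E[p] ∩ E₁`, inertia acts on `t` through `χ` and trivially on `E[p] / ⟨t⟩`, and
`E[p]` is peu ramifié: an inertia element fixing every unit `y` with `y ^ p` fixed by
`I ∩ ker χ` fixes `E[p]`.

Peu ramifié: for `x ∉ ⟨t⟩` the family `b i = x(x + i t)` is permuted cyclically by `I ∩ ker χ`;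
`(b 1 - b (-1))² = (η(x) η(t) / (x(x) - x(t))²)²` has the valuation of an element fixed by
`I ∩ ker χ` because `v(η(x))` is the valuation of an integer (`p ∣` thickness of the node) and
`x(t), η(t)` are fixed; conclude with `peu_core`.
-/

set_option autoImplicit false
set_option linter.unusedSectionVars false
set_option linter.unusedVariables false
set_option linter.style.haveILetI false

namespace Fermat.Agent.Ribet.H62

open WeierstrassCurve WeierstrassCurve.Affine WeierstrassCurve.Affine.Point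
open Fermat.Agent.S05 Fermat.Agent.S05.SameRed Fermat.Agent.S05.Assemble
open Fermat.Agent.S13.H64
open Fermat.Agent.Ribet.Spec Fermat.Agent.Ribet.H944.Wall

variable {P : FreyPackage} {A : ValuationSubring Qb}

lemma xq_smul (σ : GQ) (T : (P.freyCurve⁄Qb).Point) : xq (σ • T) = σ (xq T) := by
  rcases T with _ | ⟨x, y, h⟩
  · exact (map_zero σ).symm
  · rfl

/-- A `PeuFixes` element fixes the `p`-th roots of unity. -/
lemma cycloAt_one_of_peuFixes {p : ℕ} (hp0 : p ≠ 0) {σ : GQ} (hσ : PeuFixes A p σ) :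
    CycloAt p σ 1 := by
  intro ζ hζ
  rw [pow_one]
  have hv : A.valuation ζ = 1 := by
    apply pow_eq_pow_imp_eq hp0
    rw [← map_pow, hζ, map_one, one_pow]
  have hv' : A.valuation ζ⁻¹ = 1 := by rw [map_inv₀, hv, inv_one]
  refine hσ.2 ζ ((A.valuation_le_one_iff ζ).mp hv.le) ((A.valuation_le_one_iff _).mp hv'.le) ?_
  intro τ _ _
  rw [hζ, map_one]

section Gen

variable (hA : A.LiesOverPrime P.p) (hpabc : (P.p : ℤ) ∣ P.a * P.b * P.c)
  {t : ETorsion P.freyCurve P.p} (ht0 : t ≠ 0)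
  (htK : InKer (P.freyCurve⁄Qb) A.valuation (t : (P.freyCurve⁄Qb).Point))
  (hgen : ∀ x : ETorsion P.freyCurve P.p,
    InKer (P.freyCurve⁄Qb) A.valuation (x : (P.freyCurve⁄Qb).Point) → ∃ k : ℕ, x = k • t)

include hA hpabc ht0 htK hgen

/-- **`E[p]` is peu ramifié.** -/
theorem peu (x : ETorsion P.freyCurve P.p) {σ : GQ} (hσ : PeuFixes A P.p σ) : σ • x = x := by
  classical
  haveI : Fact P.p.Prime := ⟨P.pp⟩
  have hp2 := frey_p_ne_two P
  have hσI : σ ∈ A.inertiaSubgroupIn ℚ := hσ.1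
  have hσc : CycloAt P.p σ 1 := cycloAt_one_of_peuFixes P.pp.ne_zero hσ
  -- the subgroup `I ∩ ker χ`
  set H : Set GQ := {τ | τ ∈ A.inertiaSubgroupIn ℚ ∧ CycloAt P.p τ 1} with hH
  have hσH : σ ∈ H := ⟨hσI, hσc⟩
  have htfix : ∀ τ ∈ H, τ • t = t := by
    intro τ hτ
    have := smul_generator hA hgen ht0 htK hτ.1 hτ.2
    rwa [one_smul] at this
  by_cases hx : InKer (P.freyCurve⁄Qb) A.valuation (x : (P.freyCurve⁄Qb).Point)
  · obtain ⟨k, rfl⟩ := hgen x hx
    rw [smul_comm σ k t, htfix σ hσH]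
  -- the main case: `x ∉ E₁`
  set v := A.valuation with hv
  -- the shift function
  set n : GQ → ZMod P.p := fun τ =>
    if h : τ ∈ A.inertiaSubgroupIn ℚ then
      ((Classical.choose (exists_smul_eq_add hA hgen h x) : ℕ) : ZMod P.p) else 0 with hn
  have hnτ : ∀ τ ∈ A.inertiaSubgroupIn ℚ, τ • x = x + n τ • t := by
    intro τ hτ
    have h1 := Classical.choose_spec (exists_smul_eq_add hA hgen hτ x)
    rw [hn]
    simp only [dif_pos hτ]
    rw [Nat.cast_smul_eq_nsmul]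
    exact h1
  set b : ZMod P.p → Qb := fun i =>
    xq ((x + i • t : ETorsion P.freyCurve P.p) : (P.freyCurve⁄Qb).Point) with hb
  have hbτ : ∀ τ ∈ H, ∀ i, τ (b i) = b (i + n τ) := by
    intro τ hτ i
    simp only [hb]
    have hcoe : ∀ y : ETorsion P.freyCurve P.p,
        xq ((τ • y : ETorsion P.freyCurve P.p) : (P.freyCurve⁄Qb).Point)
          = τ (xq (y : (P.freyCurve⁄Qb).Point)) := fun y => xq_smul τ _
    rw [← hcoe, smul_add, smul_comm τ i t, htfix τ hτ, hnτ τ hτ.1]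
    congr 2
    module
  obtain ⟨ζ, hζ⟩ := HasEnoughRootsOfUnity.exists_primitiveRoot Qb P.p
  have hHζ : ∀ τ ∈ H, τ ζ = ζ := by
    intro τ hτ
    have := hτ.2 ζ hζ.pow_eq_one
    rwa [pow_one] at this
  have hpK : ((P.p : ℕ) : Qb) ≠ 0 := Nat.cast_ne_zero.mpr P.pp.ne_zero
  have hσ' : ∀ y : Qb, v y = 1 → (∀ τ ∈ H, τ (y ^ P.p) = y ^ P.p) → σ y = y := by
    intro y hy hfix
    have hy' : v y⁻¹ = 1 := by rw [map_inv₀, hy, inv_one]
    exact hσ.2 y ((A.valuation_le_one_iff y).mp hy.le) ((A.valuation_le_one_iff _).mp hy'.le)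
      (fun τ hτI hτc => hfix τ ⟨hτI, hτc⟩)
  -- the valuation of `(b 1 - b (-1)) ^ 2`
  have hκ : InV v H ((b 1 - b (-1)) ^ 2) := by
    obtain ⟨⟨X, hXt⟩, rfl⟩ : ∃ X : { T // T ∈ Submodule.torsionBy ℤ (P.freyCurve⁄Qb).Point
        (P.p : ℕ) }, X = x := ⟨x, rfl⟩
    obtain ⟨⟨T, hTt⟩, rfl⟩ : ∃ X : { T // T ∈ Submodule.torsionBy ℤ (P.freyCurve⁄Qb).Point
        (P.p : ℕ) }, X = t := ⟨t, rfl⟩
    have hPX : P.p • X = 0 := by
      have := (Submodule.mem_torsionBy_iff _ _).mp hXt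
      rwa [natCast_zsmul] at this
    have hPT : P.p • T = 0 := by
      have := (Submodule.mem_torsionBy_iff _ _).mp hTt
      rwa [natCast_zsmul] at this
    have hb1 : b 1 = xq (X + T) := by
      simp only [hb, one_smul]
      rfl
    have hb2 : b (-1) = xq (X - T) := by
      simp only [hb, neg_smul, one_smul, ← sub_eq_add_neg]
      rfl
    rcases X with _ | ⟨x₁, y₁, h₁⟩
    · exact absurd trivial hx
    rcases T with _ | ⟨x₂, y₂, h₂⟩
    · exact absurd rfl ht0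
    have hx₁ : v x₁ ≤ 1 := not_lt.mp hx
    have hx₂ : 1 < v x₂ := htK
    have hx12 : x₁ ≠ x₂ := by
      rintro rfl
      exact absurd hx₂ (not_lt.mpr hx₁)
    have hdiff := add_sub_some_diff h₁ h₂ hx12
    rw [← hb1, ← hb2] at hdiff
    obtain ⟨c, hc0, hcv⟩ := frey_val_eta P A hA hpabc h₁ hPX hx₁
    have hη₂ : 2 * y₂ + (P.freyCurve⁄Qb).a₁ * x₂ + (P.freyCurve⁄Qb).a₃ ≠ 0 :=
      eta_ne_zero_of_odd_torsion P.hp_odd h₂ hPT
    have hx₂0 : x₂ ≠ 0 := by
      rintro rfl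
      rw [_root_.map_zero] at hx₂
      exact not_lt_zero hx₂
    have hfixT : ∀ τ ∈ H, τ x₂ = x₂ ∧ τ y₂ = y₂ := by
      intro τ hτ
      have h1 := congrArg Subtype.val (htfix τ hτ)
      have h2 : Point.some (τ x₂) (τ y₂)
          ((WeierstrassCurve.Affine.baseChange_nonsingular P.freyCurve
            τ.toAlgHom.injective x₂ y₂).mpr h₂) = Point.some x₂ y₂ h₂ := h1
      rw [Point.some.injEq] at h2
      exact h2
    have hvx : v (x₁ - x₂) = v x₂ := val_sub_eq_of_lt' (lt_of_le_of_lt hx₁ hx₂)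
    have hd0 : x₁ - x₂ ≠ 0 := sub_ne_zero.mpr hx12
    set η₁ := 2 * y₁ + (P.freyCurve⁄Qb).a₁ * x₁ + (P.freyCurve⁄Qb).a₃ with hη₁
    set η₂ := 2 * y₂ + (P.freyCurve⁄Qb).a₁ * x₂ + (P.freyCurve⁄Qb).a₃ with hη₂def
    have hbb : b 1 - b (-1) = -(η₁ * η₂) / (x₁ - x₂) ^ 2 := by
      rw [eq_div_iff (pow_ne_zero _ hd0), mul_comm]
      exact hdiff
    refine ⟨((c : Qb) * η₂ / x₂ ^ 2) ^ 2,
      pow_ne_zero _ (div_ne_zero (mul_ne_zero (Int.cast_ne_zero.mpr hc0) hη₂)
        (pow_ne_zero _ hx₂0)), ?_, ?_⟩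
    · intro τ hτ
      obtain ⟨e1, e2⟩ := hfixT τ hτ
      have e3 : τ η₂ = η₂ := by
        simp only [hη₂def, map_add, map_mul, e1, e2, frey_a₁, frey_a₃, map_one,
          _root_.map_zero, map_ofNat]
      rw [map_pow, map_div₀, map_mul, map_pow, map_intCast, e1, e3]
    · rw [hbb, map_pow, map_pow, map_div₀, map_div₀, map_mul, map_pow, map_pow,
        Valuation.map_neg, map_mul, hvx, hcv]
  have key := peu_core (v := v) (H := H) hp2 hpK hζ hHζ b n hbτ hσH hσ' hκ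
  rw [hnτ σ hσI, key, zero_smul, add_zero]

end Gen

/-- **ELOC-ord-Frey.** -/
theorem elocOrdFrey : ELOCOrdFreyStatement := by
  intro P hpabc A hA
  obtain ⟨t, ht0, htK, hgen⟩ := exists_generator P A hA hpabc
  refine ⟨t, ?_, ?_, ?_⟩
  · intro σ hσ c hc
    exact smul_generator hA hgen ht0 htK hσ hc
  · intro x σ hσ
    exact exists_smul_eq_add hA hgen hσ x
  · intro x σ hσ
    exact peu hA hpabc ht0 htK hgen x hσ

end Fermat.Agent.Ribet.H62
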