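import Fermat.Agent.Ribet.H944.WallSpec
import Fermat.Agent.Ribet.H62.ElocAbs
import Fermat.Agent.S13.H64.FreyP
import Fermat.Agent.S59.H396.TorsionCount
import Fermat.Agent.Ribet.H104.FreyModelAtP

/-!
# RIBET / ELOC-ord-Frey (helper62): the line `E[p] ∩ E₁` of the Frey curve at `p ∣ abc`

* `frey_val_eta` : the valuation of `η = 2y + a₁x + a₃` at an integral `p`-torsion point is the
  valuation of a nonzero integer (thickness of the node divisible by `p`);
* `frey_ncard_inKer` : exactly `p` points of `E[p]` lie in the kernel of reduction;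
* `exists_generator` : a generator `t` of `E[p] ∩ E₁`;
* `inKer_smul_sub` : `σ x - x ∈ E₁` for every `x ∈ E[p]` and `σ` in the inertia group.
-/

set_option autoImplicit false
set_option linter.unusedSectionVars false
set_option linter.unusedVariables false
set_option linter.style.haveILetI false

namespace Fermat.Agent.Ribet.H62

open WeierstrassCurve WeierstrassCurve.Affine WeierstrassCurve.Affine.Point
open Fermat.Agent.S05 Fermat.Agent.S05.SameRed Fermat.Agent.S05.Assemble
open Fermat.Agent.S13.H64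
open Fermat.Agent.Ribet.Spec Fermat.Agent.Ribet.H944.Wall

variable (P : FreyPackage) (A : ValuationSubring Qb)

lemma frey_p_ne_two : P.p ≠ 2 := by have := P.hp5; omega

/-- **Valuation of `η` at an integral `p`-torsion point.** -/
theorem frey_val_eta (hA : A.LiesOverPrime P.p) (hpabc : (P.p : ℤ) ∣ P.a * P.b * P.c)
    {x y : Qb} (h : (P.freyCurve⁄Qb).Nonsingular x y) (hP : P.p • Point.some x y h = 0)
    (hx : A.valuation x ≤ 1) :
    ∃ c : ℤ, c ≠ 0 ∧
      A.valuation (2 * y + (P.freyCurve⁄Qb).a₁ * x + (P.freyCurve⁄Qb).a₃)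
        = A.valuation (c : Qb) := by
  have hq := P.pp
  have hq2 := frey_p_ne_two P
  have hW := frey_integral (P := P) hA hq hq2
  have h2 := val_two_eq_one hA hq hq2
  have h4 := val_four_eq_one hA hq hq2
  have hodd : Odd P.p := P.hp_odd
  have hroots := frey_roots P
  have fin : ∀ (π : ℤ), π ≠ 0 →
      (∃ j : ℕ, A.valuation (2 * y + (P.freyCurve⁄Qb).a₁ * x + (P.freyCurve⁄Qb).a₃)
        = A.valuation (((π : ℤ) : Qb) ^ j)) →
      ∃ c : ℤ, c ≠ 0 ∧
      A.valuation (2 * y + (P.freyCurve⁄Qb).a₁ * x + (P.freyCurve⁄Qb).a₃)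
        = A.valuation (c : Qb) := by
    rintro π hπ0 ⟨j, hj⟩
    exact ⟨π ^ j, pow_ne_zero _ hπ0, by rw [hj]; push_cast; rfl⟩
  by_cases ha : (P.p : ℤ) ∣ P.a
  · have hb : ¬ (P.p : ℤ) ∣ P.b := not_dvd_of_gcd_eq_one hq P.hgcdab ha
    have hr : Roots (P.freyCurve⁄Qb) 0 (0 + fA P / 4) (0 + -(fB P) / 4) := by
      simpa using hroots
    have hα : A.valuation (fA P / 4) < 1 := by
      rw [val_div_four h4]; exact val_fA_lt_one hA ha
    have hβ : A.valuation (-(fB P) / 4) = 1 := by
      rw [val_neg_div_four h4]; exact val_fB_eq_one hA hq hb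
    have hα0 : fA P / 4 ≠ 0 := div_ne_zero (fA_ne_zero P) four_ne_zero_Qb
    have hπ : A.valuation (((P.a ^ 2 : ℤ) : Qb)) ^ P.p = A.valuation (fA P / 4) ^ 2 := by
      rw [val_div_four h4]; exact val_sq_pow _ _
    exact fin (P.a ^ 2) (pow_ne_zero _ P.ha0)
      (val_eta_of_node hW h2 hodd hr (by rw [_root_.map_zero]; exact zero_le_one) hα hβ hπ
        (nodeTorsion_of_c3c h2 hr hα0 hα hβ hodd) h hP hx)
  by_cases hb : (P.p : ℤ) ∣ P.b
  · have hr : Roots (P.freyCurve⁄Qb) 0 (0 + -(fB P) / 4) (0 + fA P / 4) := by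
      have := hroots.swap₁₂.swap₁₃.swap₁₂
      simpa using this
    have hα : A.valuation (-(fB P) / 4) < 1 := by
      rw [val_neg_div_four h4]; exact val_fB_lt_one hA hb
    have hβ : A.valuation (fA P / 4) = 1 := by
      rw [val_div_four h4]; exact val_fA_eq_one hA hq ha
    have hα0 : -(fB P) / 4 ≠ 0 := div_ne_zero (neg_ne_zero.mpr (fB_ne_zero P)) four_ne_zero_Qb
    have hπ : A.valuation (((P.b ^ 2 : ℤ) : Qb)) ^ P.p = A.valuation (-(fB P) / 4) ^ 2 := by
      rw [val_neg_div_four h4]; exact val_sq_pow _ _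
    exact fin (P.b ^ 2) (pow_ne_zero _ P.hb0)
      (val_eta_of_node hW h2 hodd hr (by rw [_root_.map_zero]; exact zero_le_one) hα hβ hπ
        (nodeTorsion_of_c3c h2 hr hα0 hα hβ hodd) h hP hx)
  by_cases hc : (P.p : ℤ) ∣ P.c
  · have hABC := fA_add_fB P
    have hr : Roots (P.freyCurve⁄Qb) (fA P / 4) (fA P / 4 + -(fC P) / 4)
        (fA P / 4 + -(fA P) / 4) := by
      have e1 : fA P / 4 + -(fC P) / 4 = -(fB P) / 4 := by rw [← hABC]; ring
      have e2 : fA P / 4 + -(fA P) / 4 = 0 := by ring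
      rw [e1, e2]
      exact hroots.swap₁₃.swap₁₂
    have he : A.valuation (fA P / 4) ≤ 1 := by
      rw [val_div_four h4]; exact val_fA_le_one
    have hα : A.valuation (-(fC P) / 4) < 1 := by
      rw [val_neg_div_four h4]; exact val_fC_lt_one hA hc
    have hβ : A.valuation (-(fA P) / 4) = 1 := by
      rw [val_neg_div_four h4]; exact val_fA_eq_one hA hq ha
    have hα0 : -(fC P) / 4 ≠ 0 := div_ne_zero (neg_ne_zero.mpr (fC_ne_zero P)) four_ne_zero_Qb
    have hπ : A.valuation (((P.c ^ 2 : ℤ) : Qb)) ^ P.p = A.valuation (-(fC P) / 4) ^ 2 := by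
      rw [val_neg_div_four h4]; exact val_sq_pow _ _
    exact fin (P.c ^ 2) (pow_ne_zero _ P.hc0)
      (val_eta_of_node hW h2 hodd hr he hα hβ hπ
        (nodeTorsion_of_c3c h2 hr hα0 hα hβ hodd) h hP hx)
  · exfalso
    have hqp : Prime (P.p : ℤ) := Nat.prime_iff_prime_int.mp hq
    rcases hqp.dvd_or_dvd hpabc with hab | hc'
    · rcases hqp.dvd_or_dvd hab with ha' | hb'
      · exact ha ha'
      · exact hb hb'
    · exact hc hc'

/-! ### The count -/

/-- transport of the count along an equality of curves -/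
lemma ncard_inKer_congr {W W' : Affine Qb} (h : W = W') (p : ℕ) :
    Set.ncard {T : W.Point | p • T = 0 ∧ InKer W A.valuation T}
      = Set.ncard {T : W'.Point | p • T = 0 ∧ InKer W' A.valuation T} := by
  subst h
  rfl

lemma frey_curveK_eq :
    Fermat.Agent.S59.H396.curveK A (P.freyCurveInt.map (Int.castRingHom A))
      = (P.freyCurve⁄Qb) := by
  show (P.freyCurveInt.map (Int.castRingHom A)).map (algebraMap A Qb)
    = P.freyCurve.map (algebraMap ℚ Qb)
  rw [Fermat.Agent.Ribet.H104.freyCurve_eq_map, WeierstrassCurve.map_map,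
    WeierstrassCurve.map_map]
  congr 1

theorem frey_isElliptic' : (P.freyCurve⁄Qb).IsElliptic := by
  constructor
  rw [isUnit_iff_ne_zero]
  show (P.freyCurve.map (algebraMap ℚ Qb)).Δ ≠ 0
  rw [WeierstrassCurve.map_Δ, Fermat.Agent.Ribet.H104.freyCurve_eq_map, WeierstrassCurve.map_Δ]
  exact (_root_.map_ne_zero _).mpr (by
    simpa using Fermat.Agent.Ribet.H104.Δ_ne_zero P)

/-- **Exactly `p` points of `E[p]` lie in the kernel of reduction.** -/
theorem frey_ncard_inKer (hA : A.LiesOverPrime P.p) (hpabc : (P.p : ℤ) ∣ P.a * P.b * P.c) :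
    Set.ncard {T : (P.freyCurve⁄Qb).Point |
      P.p • T = 0 ∧ InKer (P.freyCurve⁄Qb) A.valuation T} = P.p := by
  haveI : Fact P.p.Prime := ⟨P.pp⟩
  have hqp : Prime (P.p : ℤ) := Nat.prime_iff_prime_int.mp P.pp
  have hE := frey_curveK_eq P A
  haveI : (Fermat.Agent.S59.H396.curveK A
      (P.freyCurveInt.map (Int.castRingHom A))).IsElliptic := by
    rw [hE]; exact frey_isElliptic' P
  have hcoe : ∀ n : ℤ, ((Int.castRingHom A n : A) : Qb) = (n : Qb) := by
    intro n
    simp
  have hpV : ((P.p : ℕ) : A) ∈ IsLocalRing.maximalIdeal A := by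
    rw [ValuationSubring.valuation_lt_one_iff]
    have : (((P.p : ℕ) : A) : Qb) = ((P.p : ℕ) : Qb) := by simp
    rw [this]
    exact (A.mem_nonunits_iff).mp hA
  have hΔdvd : (P.p : ℤ) ∣ P.freyCurveInt.Δ := by
    have h1 : (P.p : ℤ) ∣ 2 ^ 8 * P.freyCurveInt.Δ := by
      rw [Fermat.Agent.Ribet.H104.two_pow_mul_Δ]
      exact dvd_pow hpabc (by have := P.hp0; omega)
    rcases hqp.dvd_or_dvd h1 with h2 | h2
    · exfalso
      have h3 : (P.p : ℤ) ∣ 2 := hqp.dvd_of_dvd_pow h2
      have h4 : P.p ∣ 2 := by exact_mod_cast h3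
      exact frey_p_ne_two P ((Nat.prime_dvd_prime_iff_eq P.pp Nat.prime_two).mp h4)
    · exact h2
  have hΔ : (P.freyCurveInt.map (Int.castRingHom A)).Δ ∈ IsLocalRing.maximalIdeal A := by
    rw [ValuationSubring.valuation_lt_one_iff, WeierstrassCurve.map_Δ, hcoe]
    exact val_int_lt_one hA hΔdvd
  have hc4 : (P.freyCurveInt.map (Int.castRingHom A)).c₄ ∉ IsLocalRing.maximalIdeal A := by
    rw [ValuationSubring.valuation_lt_one_iff, WeierstrassCurve.map_c₄, hcoe]
    have h1 : ¬ (P.p : ℤ) ∣ P.freyCurveInt.c₄ :=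
      fun h => Fermat.Agent.Ribet.H104.not_dvd_abc_of_dvd_c₄ P hqp h hpabc
    rw [val_int_eq_one hA P.pp h1]
    exact lt_irrefl _
  have key := Fermat.Agent.S59.H396.ncard_torsion_inKer A
    (P.freyCurveInt.map (Int.castRingHom A)) P.p (frey_p_ne_two P) hpV hΔ hc4 1
  simp only [pow_one] at key
  exact (ncard_inKer_congr A hE P.p).symm.trans key

end Fermat.Agent.Ribet.H62
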