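import Fermat.Agent.Ribet.H62.ElocFreyLine
import Fermat.Agent.Ribet.H403.DetFrey

/-!
# RIBET / ELOC-ord-Frey (helper62): the ordinary filtration of `E[p]` for the Frey curve

`t` a generator of `E[p] ∩ E₁` (`exists_generator`); inertia at `p` acts on `t` through the
cyclotomic character (`smul_generator`, from `det = χ`) and trivially on `E[p] / ⟨t⟩`
(`exists_smul_eq_add`).
-/

set_option autoImplicit false
set_option linter.unusedSectionVars false
set_option linter.unusedVariables false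
set_option linter.style.haveILetI false

namespace Fermat.Agent.Ribet.H62

open WeierstrassCurve WeierstrassCurve.Affine WeierstrassCurve.Affine.Point
open Fermat.Agent.S05 Fermat.Agent.S05.SameRed Fermat.Agent.S05.Assemble
open Fermat.Agent.S13.H64
open Fermat.Agent.Ribet.Spec Fermat.Agent.Ribet.H944.Wall

variable (P : FreyPackage) (A : ValuationSubring Qb)

/-- `E[p] ∩ E₁` as a subgroup of `E[p]`. -/
noncomputable def kerTors (hA : A.LiesOverPrime P.p) : AddSubgroup (ETorsion P.freyCurve P.p) where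
  carrier := {x | InKer (P.freyCurve⁄Qb) A.valuation (x : (P.freyCurve⁄Qb).Point)}
  zero_mem' := by
    show InKer (P.freyCurve⁄Qb) A.valuation (0 : (P.freyCurve⁄Qb).Point)
    exact inKer_zero
  add_mem' := fun {a b} ha hb => by
    show InKer _ _ ((a + b : ETorsion P.freyCurve P.p) : (P.freyCurve⁄Qb).Point)
    rw [Submodule.coe_add]
    exact Fermat.Agent.Lib.Red.H290.inKer_add (frey_integral hA P.pp (frey_p_ne_two P)) ha hb
  neg_mem' := fun {a} ha => by
    show InKer _ _ ((-a : ETorsion P.freyCurve P.p) : (P.freyCurve⁄Qb).Point)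
    rw [Submodule.coe_neg]
    exact inKer_neg ha

lemma mem_kerTors (hA : A.LiesOverPrime P.p) (x : ETorsion P.freyCurve P.p) :
    x ∈ kerTors P A hA ↔ InKer (P.freyCurve⁄Qb) A.valuation (x : (P.freyCurve⁄Qb).Point) :=
  Iff.rfl

theorem card_kerTors (hA : A.LiesOverPrime P.p) (hpabc : (P.p : ℤ) ∣ P.a * P.b * P.c) :
    Nat.card (kerTors P A hA) = P.p := by
  refine (Nat.card_congr ?_).trans ((Nat.card_coe_set_eq _).trans
    (frey_ncard_inKer P A hA hpabc))
  refine
    { toFun := fun x => ⟨(x.1 : (P.freyCurve⁄Qb).Point), ⟨?_, x.2⟩⟩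
      invFun := fun T => ⟨⟨T.1, ?_⟩, T.2.2⟩
      left_inv := fun x => rfl
      right_inv := fun T => rfl }
  · have := (Submodule.mem_torsionBy_iff _ _).mp x.1.2
    rwa [natCast_zsmul] at this
  · rw [Submodule.mem_torsionBy_iff, natCast_zsmul]
    exact T.2.1

/-- **A generator of `E[p] ∩ E₁`.** -/
theorem exists_generator (hA : A.LiesOverPrime P.p) (hpabc : (P.p : ℤ) ∣ P.a * P.b * P.c) :
    ∃ t : ETorsion P.freyCurve P.p, t ≠ 0 ∧
      InKer (P.freyCurve⁄Qb) A.valuation (t : (P.freyCurve⁄Qb).Point) ∧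
      ∀ x : ETorsion P.freyCurve P.p,
        InKer (P.freyCurve⁄Qb) A.valuation (x : (P.freyCurve⁄Qb).Point) → ∃ k : ℕ, x = k • t := by
  haveI : Fact P.p.Prime := ⟨P.pp⟩
  have hcard := card_kerTors P A hA hpabc
  haveI : Finite (kerTors P A hA) :=
    Nat.finite_of_card_ne_zero (by rw [hcard]; exact P.pp.ne_zero)
  have hnt : Nontrivial (kerTors P A hA) := by
    rw [← Finite.one_lt_card_iff_nontrivial, hcard]; exact P.pp.one_lt
  obtain ⟨t, ht⟩ := exists_ne (0 : kerTors P A hA)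
  refine ⟨t.1, fun h => ht (Subtype.ext h), t.2, fun x hx => ?_⟩
  have hmem : (⟨x, hx⟩ : kerTors P A hA) ∈ AddSubgroup.zmultiples t :=
    mem_zmultiples_of_prime_card hcard ht
  obtain ⟨k, hk⟩ := AddSubgroup.mem_zmultiples_iff.mp hmem
  have hk' : k • (t.1) = x := congrArg Subtype.val hk
  refine ⟨((k : ZMod P.p)).val, ?_⟩
  rw [← hk', ← Nat.cast_smul_eq_nsmul (ZMod P.p), ZMod.natCast_zmod_val, Int.cast_smul_eq_zsmul]

/-- The inertia group preserves the kernel of reduction. -/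
lemma inKer_smul {σ : GQ} (hσ : σ ∈ A.inertiaSubgroupIn ℚ) {T : (P.freyCurve⁄Qb).Point}
    (hT : InKer (P.freyCurve⁄Qb) A.valuation T) :
    InKer (P.freyCurve⁄Qb) A.valuation (σ • T) := by
  rcases T with _ | ⟨x, y, h⟩
  · exact inKer_zero
  · have hx : 1 < A.valuation x := hT
    show 1 < A.valuation (σ x)
    have hx0 : x ≠ 0 := by
      rintro rfl
      rw [_root_.map_zero] at hx
      exact not_lt_zero hx
    have hs : A.valuation x⁻¹ < 1 := by
      rw [map_inv₀]; exact inv_lt_one_of_one_lt₀ hx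
    have h1 := inertia_res A hσ x⁻¹ hs.le
    have h2 : A.valuation (σ x⁻¹) < 1 := by
      have : σ x⁻¹ = (σ x⁻¹ - x⁻¹) + x⁻¹ := by ring
      rw [this]
      exact val_add_lt_one h1 hs
    rw [map_inv₀, map_inv₀] at h2
    have hσx0 : A.valuation (σ x) ≠ 0 := by
      rw [Valuation.ne_zero_iff]
      exact (map_ne_zero σ).mpr hx0
    by_contra hcon
    rw [not_lt] at hcon
    have : 1 ≤ (A.valuation (σ x))⁻¹ := (one_le_inv₀ (zero_lt_iff.mpr hσx0)).mpr hcon
    exact absurd h2 (not_lt.mpr this)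

/-- `σ x - x ∈ E₁` for all `x ∈ E[p]`, `σ` in the inertia group at `p`. -/
theorem inKer_smul_sub (hA : A.LiesOverPrime P.p) {σ : GQ} (hσ : σ ∈ A.inertiaSubgroupIn ℚ)
    (x : ETorsion P.freyCurve P.p) :
    InKer (P.freyCurve⁄Qb) A.valuation
      ((σ • x - x : ETorsion P.freyCurve P.p) : (P.freyCurve⁄Qb).Point) := by
  by_cases hx : InKer (P.freyCurve⁄Qb) A.valuation (x : (P.freyCurve⁄Qb).Point)
  · rw [Submodule.coe_sub]
    exact Fermat.Agent.Lib.Red.H290.inKer_sub (frey_integral hA P.pp (frey_p_ne_two P))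
      (inKer_smul P A hσ hx) hx
  · exact frey_inKer_smul_sub_torsion P A hA σ hσ x hx

section Gen

variable {P A}
variable (hA : A.LiesOverPrime P.p)
  {t : ETorsion P.freyCurve P.p}
  (hgen : ∀ x : ETorsion P.freyCurve P.p,
    InKer (P.freyCurve⁄Qb) A.valuation (x : (P.freyCurve⁄Qb).Point) → ∃ k : ℕ, x = k • t)

include hA hgen

/-- Inertia acts trivially on `E[p] / ⟨t⟩`. -/
theorem exists_smul_eq_add {σ : GQ} (hσ : σ ∈ A.inertiaSubgroupIn ℚ)
    (x : ETorsion P.freyCurve P.p) : ∃ n : ℕ, σ • x = x + n • t := by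
  obtain ⟨n, hn⟩ := hgen _ (inKer_smul_sub P A hA hσ x)
  exact ⟨n, by rw [← hn]; abel⟩

/-- Inertia acts on `t` through the cyclotomic character. -/
theorem smul_generator (ht0 : t ≠ 0)
    (htK : InKer (P.freyCurve⁄Qb) A.valuation (t : (P.freyCurve⁄Qb).Point))
    {σ : GQ} (hσ : σ ∈ A.inertiaSubgroupIn ℚ) {c : ℕ} (hc : CycloAt P.p σ c) :
    σ • t = c • t := by
  haveI : Fact P.p.Prime := ⟨P.pp⟩
  set f := galoisRepModuleEnd (S := ℚ) (K := Qb) P.freyCurve P.p σ with hf
  have hfx : ∀ x, f x = σ • x := fun x => rfl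
  have hdet : LinearMap.det f = (c : ZMod P.p) :=
    Fermat.Agent.Ribet.H403.frey_det_eq_of_apply_root P σ c hc
  have hΔ := Fermat.Agent.S13.H891.freyCurve_Δ_ne_zero P
  have h2 : Module.finrank (ZMod P.p) (ETorsion P.freyCurve P.p) = 2 :=
    Fermat.Agent.Ribet.H403.finrank_tors P.freyCurve hΔ P.p
  haveI : Finite (ETorsion P.freyCurve P.p) :=
    Fermat.Agent.Ribet.H403.finite_tors P.freyCurve hΔ P.p P.pp.one_lt.le
  haveI : Module.Finite (ZMod P.p) (ETorsion P.freyCurve P.p) := Module.Finite.of_finite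
  obtain ⟨m, hm⟩ := hgen (σ • t) (by
    show InKer _ _ (σ • (t : (P.freyCurve⁄Qb).Point))
    exact inKer_smul P A hσ htK)
  have hstep : ∀ x, ∃ n : ℕ, f x = x + (n : ZMod P.p) • t := by
    intro x
    obtain ⟨n, hn⟩ := exists_smul_eq_add hA hgen hσ x
    exact ⟨n, by rw [hfx, hn, Nat.cast_smul_eq_nsmul]⟩
  have hft : f t = (m : ZMod P.p) • t := by rw [hfx, hm, Nat.cast_smul_eq_nsmul]
  have hrel : ∀ x, f (f x) - ((1 : ZMod P.p) + m) • f x + (m : ZMod P.p) • x = 0 := by
    intro x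
    obtain ⟨n, hn⟩ := hstep x
    rw [hn, map_add, map_smul, hn, hft]
    module
  by_cases hsc : ∃ s : ZMod P.p, ∀ x, f x = s • x
  · obtain ⟨s, hs⟩ := hsc
    have hs1 : s = 1 := by
      by_contra hne
      have hall : ∀ x, ∃ c' : ZMod P.p, c' • t = x := by
        intro x
        obtain ⟨n, hn⟩ := hstep x
        refine ⟨(s - 1)⁻¹ * n, ?_⟩
        have h1 : (s - 1) • x = (n : ZMod P.p) • t := by
          rw [sub_smul, one_smul, ← hs, hn]; abel
        rw [mul_smul, ← h1, smul_smul, inv_mul_cancel₀ (sub_ne_zero.2 hne), one_smul]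
      have := finrank_le_one t hall
      omega
    have hdet1 : LinearMap.det f = 1 := by
      have : f = LinearMap.id := LinearMap.ext fun x => by rw [hs, hs1, one_smul]; rfl
      rw [this, LinearMap.det_id]
    have hc1 : (c : ZMod P.p) = 1 := by rw [← hdet, hdet1]
    rw [← hfx, hs, hs1, one_smul, ← Nat.cast_smul_eq_nsmul (ZMod P.p) c, hc1, one_smul]
  · have := Fermat.Agent.Ribet.H403.det_eq_of_quadratic_of_not_scalar h2 f (1 + m) m hrel hsc
    rw [hdet] at this
    rw [hm, ← Nat.cast_smul_eq_nsmul (ZMod P.p) m, ← this, Nat.cast_smul_eq_nsmul]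

end Gen

end Fermat.Agent.Ribet.H62
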